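import Mathlib.GroupTheory.Frattini
import Mathlib.GroupTheory.Sylow
import Mathlib.GroupTheory.Index
import Mathlib.GroupTheory.GroupAction.ConjAct
import Mathlib.Data.Nat.ModEq
import Mathlib.FieldTheory.Finite.Basic
import Mathlib.Data.Nat.Factorization.Basic
import Mathlib.Algebra.BigOperators.GroupWithZero.Finset

/-!
# Gaschütz: complements of abelian normal subgroups

A complement of an abelian normal subgroup `A` is the kernel of a crossed homomorphism `G → A` that
is the identity on `A`, and such maps are obtained from a complement in a subgroup of index prime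
to `|A|` by a product over the cosets.
-/

set_option autoImplicit false
set_option linter.style.haveILetI false

noncomputable section

open Subgroup
open scoped IsMulCommutative

namespace FA.GaschuetzTheorems

variable {G : Type*} [Group G]

/-- `A` has a complement. -/
def Complemented (A : Subgroup G) : Prop := ∃ K : Subgroup G, K ⊓ A = ⊥ ∧ K ⊔ A = ⊤

/-- `A` has a complement inside `H`. -/
def ComplementedIn (A H : Subgroup G) : Prop := ∃ T ≤ H, T ⊓ A = ⊥ ∧ T ⊔ A = H

variable {A : Subgroup G} [A.Normal] [IsMulCommutative A]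

/-- A crossed homomorphism to `A`. -/
def IsCrossed (C : G → A) : Prop := ∀ g k, C (g * k) = MulAut.conjNormal g (C k) * C g

theorem conjNormal_coe (a : A) (x : A) : MulAut.conjNormal (a : G) x = x := by
  refine Subtype.ext ?_
  rw [MulAut.conjNormal_apply, ← Subgroup.coe_mul, mul_comm a x, Subgroup.coe_mul,
    mul_inv_cancel_right]

namespace IsCrossed

variable {C : G → A} (hC : IsCrossed C)
include hC

omit [IsMulCommutative A] in
theorem map_one : C 1 = 1 := by
  have h := hC 1 1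
  rw [mul_one, _root_.map_one] at h
  exact mul_left_cancel (a := C 1) (by rw [mul_one]; exact h.symm)

theorem map_coe_mul (a b : A) : C ((a * b : A) : G) = C a * C b := by
  rw [Subgroup.coe_mul, hC, conjNormal_coe, mul_comm]

theorem pow (e : ℕ) : IsCrossed fun g => C g ^ e := fun g k => by
  simp only [hC g k, mul_pow, map_pow]

theorem eq_of_mul (a : A) (g : G) : C (a * g) = C g * C a := by
  rw [hC, conjNormal_coe]

omit hC in
theorem prod {ι : Type*} (s : Finset ι) {D : ι → G → A} (hD : ∀ i ∈ s, IsCrossed (D i)) :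
    IsCrossed fun g => ∏ i ∈ s, D i g := fun g k => by
  simp only [map_prod, ← Finset.prod_mul_distrib]
  exact Finset.prod_congr rfl fun i hi => hD i hi g k

/-- The kernel of a crossed homomorphism. -/
def ker : Subgroup G where
  carrier := {g | C g = 1}
  one_mem' := hC.map_one
  mul_mem' {g k} hg hk := by
    show C (g * k) = 1
    rw [hC, show C k = 1 from hk, show C g = 1 from hg, _root_.map_one, mul_one]
  inv_mem' {g} hg := by
    show C g⁻¹ = 1
    have h := hC g⁻¹ g
    rwa [inv_mul_cancel, hC.map_one, show C g = 1 from hg, _root_.map_one, one_mul, eq_comm] at h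

omit [IsMulCommutative A] in
theorem mem_ker {g : G} : g ∈ hC.ker ↔ C g = 1 := Iff.rfl

/-- A crossed homomorphism that fixes its values splits off its values. -/
theorem inv_mul_mem_ker {g : G} (h : C ((C g)⁻¹ : A) = (C g)⁻¹) :
    ((C g : A) : G)⁻¹ * g ∈ hC.ker := by
  rw [hC.mem_ker, ← Subgroup.coe_inv, hC.eq_of_mul, h, mul_inv_cancel]

end IsCrossed

/-- A crossed homomorphism that is the identity on `A` gives a complement. -/
theorem complemented_of_crossed {C : G → A} (hC : IsCrossed C) (hid : ∀ a : A, C a = a) :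
    Complemented A := by
  refine ⟨hC.ker, eq_bot_iff.2 fun x hx => ?_, eq_top_iff.2 fun g _ => ?_⟩
  · have h := hid ⟨x, hx.2⟩
    rw [show C x = 1 from hx.1] at h
    exact Subgroup.mem_bot.2 (congrArg Subtype.val h).symm
  · refine mem_sup_of_normal_right.2 ⟨_, hC.inv_mul_mem_ker (hid (C g)⁻¹),
      MulAut.conjNormal g⁻¹ (C g), SetLike.coe_mem _, ?_⟩
    rw [MulAut.conjNormal_apply]
    group

/-- A complement gives a crossed homomorphism that is the identity on `A`. -/
theorem exists_crossed_of_complemented (h : Complemented A) :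
    ∃ C : G → A, IsCrossed C ∧ ∀ a : A, C a = a := by
  obtain ⟨K, hK, hsup⟩ := h
  have hex : ∀ g : G, ∃ a : A, (a : G)⁻¹ * g ∈ K := fun g => by
    obtain ⟨a, ha, k, hk, rfl⟩ := mem_sup_of_normal_left.1
      ((sup_comm K A ▸ hsup).symm ▸ mem_top g : g ∈ A ⊔ K)
    exact ⟨⟨a, ha⟩, by simpa using hk⟩
  have huniq : ∀ (g : G) (a b : A), (a : G)⁻¹ * g ∈ K → (b : G)⁻¹ * g ∈ K → a = b :=
    fun g a b ha hb => by
      have h1 : (a : G)⁻¹ * b ∈ K ⊓ A :=
        Subgroup.mem_inf.2
          ⟨by simpa [mul_assoc] using mul_mem ha (inv_mem hb), mul_mem (inv_mem a.2) b.2⟩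
      rw [hK, Subgroup.mem_bot, inv_mul_eq_one] at h1
      exact Subtype.ext h1
  choose C hC using hex
  refine ⟨C, fun g k => huniq (g * k) _ _ (hC _) ?_, fun a => huniq a _ _ (hC _) (by simp)⟩
  have := mul_mem (hC g) (hC k)
  rw [mul_comm, Subgroup.coe_mul, MulAut.conjNormal_apply]
  convert this using 1
  have e : (C g : G)⁻¹ * (g * (C k : G)⁻¹ * g⁻¹) = g * (C k : G)⁻¹ * g⁻¹ * (C g : G)⁻¹ := by
    have := congrArg Subtype.val (mul_comm (C g)⁻¹ (MulAut.conjNormal g (C k)⁻¹))
    simpa [MulAut.conjNormal_apply, mul_assoc] using this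
  calc ((C g : G) * (g * (C k : G) * g⁻¹))⁻¹ * (g * k)
      = g * (C k : G)⁻¹ * g⁻¹ * (C g : G)⁻¹ * (g * k) := by group
    _ = (C g : G)⁻¹ * (g * (C k : G)⁻¹ * g⁻¹) * (g * k) := by rw [e]
    _ = (C g : G)⁻¹ * g * ((C k : G)⁻¹ * k) := by group

/-- **Averaging over cosets.** -/
theorem exists_crossed_index (H T E : Subgroup G) [E.Normal] [H.FiniteIndex]
    (hTA : T ⊓ A = ⊥) (hH : ∀ h ∈ H, ∃ a ∈ A, ∃ t ∈ T, a * t = h) (hEH : E ≤ H) :
    ∃ C : G → A, IsCrossed C ∧ ∀ a : A, (a : G) ∈ E → C a = a ^ H.index := by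
  classical
  haveI : Fintype (G ⧸ H) := Fintype.ofFinite _
  have hex : ∀ (g : G) (q : G ⧸ H), ∃ b : A,
      ((g • q).out)⁻¹ * (b : G)⁻¹ * g * q.out ∈ T := fun g q => by
    have hmem : ((g • q).out)⁻¹ * (g * q.out) ∈ H := by
      rw [← QuotientGroup.eq, QuotientGroup.out_eq']
      conv_lhs => rw [← QuotientGroup.out_eq' q]
      rfl
    obtain ⟨a, ha, t, ht, hat⟩ := hH _ hmem
    refine ⟨MulAut.conjNormal (g • q).out ⟨a, ha⟩, ?_⟩
    rw [MulAut.conjNormal_apply]
    have e : t = a⁻¹ * (((g • q).out)⁻¹ * (g * q.out)) := by rw [← hat]; group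
    rw [e] at ht
    convert ht using 1
    group
  have huniq : ∀ (g : G) (q : G ⧸ H) (a b : A), ((g • q).out)⁻¹ * (a : G)⁻¹ * g * q.out ∈ T →
      ((g • q).out)⁻¹ * (b : G)⁻¹ * g * q.out ∈ T → a = b := fun g q a b ha hb => by
    set r := (g • q).out
    have h1 : r⁻¹ * ((a : G)⁻¹ * b) * r ∈ T ⊓ A := Subgroup.mem_inf.2 ⟨by
        have := mul_mem ha (inv_mem hb)
        convert this using 1
        group, ‹A.Normal›.conj_mem' _ (mul_mem (inv_mem a.2) b.2) r⟩
    rw [hTA, Subgroup.mem_bot] at h1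
    have h2 : (a : G)⁻¹ * b = r * 1 * r⁻¹ := by rw [← h1]; group
    rw [mul_one, mul_inv_cancel, inv_mul_eq_one] at h2
    exact Subtype.ext h2
  choose b hb using hex
  refine ⟨fun g => ∏ q : G ⧸ H, b g q, fun g k => ?_, fun a ha => ?_⟩
  · have hgk : ∀ q, b (g * k) q = MulAut.conjNormal g (b k q) * b g (k • q) := fun q => by
      refine huniq (g * k) q _ _ (hb _ _) ?_
      have := mul_mem (hb g (k • q)) (hb k q)
      rw [mul_smul, mul_comm, Subgroup.coe_mul, MulAut.conjNormal_apply]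
      convert this using 1
      have e : (b g (k • q) : G)⁻¹ * (g * (b k q : G)⁻¹ * g⁻¹) =
          g * (b k q : G)⁻¹ * g⁻¹ * (b g (k • q) : G)⁻¹ := by
        have := congrArg Subtype.val
          (mul_comm (b g (k • q))⁻¹ (MulAut.conjNormal g (b k q)⁻¹))
        simpa [MulAut.conjNormal_apply, mul_assoc] using this
      set r := (g • k • q).out
      calc r⁻¹ * ((b g (k • q) : G) * (g * (b k q : G) * g⁻¹))⁻¹ * (g * k) * q.out
          = r⁻¹ * (g * (b k q : G)⁻¹ * g⁻¹ * (b g (k • q) : G)⁻¹) * (g * k) * q.out := by group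
        _ = r⁻¹ * ((b g (k • q) : G)⁻¹ * (g * (b k q : G)⁻¹ * g⁻¹)) * (g * k) * q.out := by
          rw [e]
        _ = _ := by group
    simp only [hgk, Finset.prod_mul_distrib, ← map_prod]
    congr 1
    exact Equiv.prod_comp (MulAction.toPerm k) (fun q => b g q)
  · have hfix : ∀ q : G ⧸ H, (a : G) • q = q := fun q => by
      induction q using QuotientGroup.induction_on with
      | H r =>
        show (QuotientGroup.mk ((a : G) * r) : G ⧸ H) = QuotientGroup.mk r
        rw [eq_comm, QuotientGroup.eq, ← mul_assoc]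
        exact hEH (‹E.Normal›.conj_mem' _ ha r)
    have hba : ∀ q, b a q = a := fun q => huniq a q _ _ (hb _ _) (by rw [hfix q]; simp)
    simp only [hba, Finset.prod_const, Finset.card_univ, ← Nat.card_eq_fintype_card]
    rw [Subgroup.index]

variable [Finite G]

omit [A.Normal] [IsMulCommutative A] [Finite G] in
/-- The exponent that projects to the `d`-part. -/
theorem exists_pow_proj {d d' : ℕ} (h : d.Coprime d') (m : ℕ) (hm : m.Coprime d) :
    ∃ e : ℕ, (∀ a : A, a ^ d = 1 → a ^ (m * e) = a) ∧ ∀ a : A, a ^ d' = 1 → a ^ e = 1 := by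
  obtain ⟨i, hi⟩ : ∃ i, m * i ≡ 1 [MOD d] := by
    rcases Nat.eq_zero_or_pos d with rfl | hd
    · exact ⟨1, by rw [mul_one, Nat.coprime_zero_right _ |>.1 hm]⟩
    · refine ⟨m ^ (d.totient - 1), ?_⟩
      rw [← pow_succ', Nat.sub_add_cancel (Nat.totient_pos.2 hd)]
      exact Nat.ModEq.pow_totient hm
  obtain ⟨e, he, he'⟩ := Nat.chineseRemainder h i 0
  refine ⟨e, fun a ha => ?_, fun a ha => by rw [pow_eq_pow_of_modEq he' ha, pow_zero]⟩
  rw [pow_eq_pow_of_modEq ((he.mul_left m).trans hi) ha, pow_one]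

/-- **Gaschütz**: a complement in a subgroup of index prime to `|A|` gives a complement in `G`. -/
theorem complemented_iff_complementedIn {H : Subgroup G} (hAH : A ≤ H)
    (hco : H.index.Coprime (Nat.card A)) : Complemented A ↔ ComplementedIn A H := by
  constructor
  · rintro ⟨K, hK, hsup⟩
    refine ⟨K ⊓ H, inf_le_right, eq_bot_iff.2 fun x hx => hK ▸ ⟨hx.1.1, hx.2⟩,
      le_antisymm (sup_le inf_le_right hAH) fun h hh => ?_⟩
    obtain ⟨k, hk, a, ha, rfl⟩ := mem_sup_of_normal_right.1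
      (hsup.symm ▸ mem_top h : h ∈ K ⊔ A)
    exact mul_mem_sup ⟨hk, (mul_mem_cancel_right (hAH ha)).1 hh⟩ ha
  · rintro ⟨T, hTH, hTA, hsup⟩
    obtain ⟨C, hC, hCa⟩ := exists_crossed_index H T A hTA
      (fun h hh => mem_sup_of_normal_left.1 (sup_comm T A ▸ hsup.symm ▸ hh : h ∈ A ⊔ T)) hAH
    obtain ⟨e, he, -⟩ := exists_pow_proj (A := A) (Nat.coprime_one_right _) H.index hco
    refine complemented_of_crossed (hC.pow e) fun a => ?_
    rw [hCa a a.2, ← pow_mul]
    exact he a pow_card_eq_one'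

/-- The elements of `A` killed by `d`. -/
def tor (A : Subgroup G) [IsMulCommutative A] (d : ℕ) : Subgroup G :=
  (powMonoidHom d : A →* A).ker.map A.subtype

omit [A.Normal] [Finite G] in
theorem mem_tor {d : ℕ} {x : G} : x ∈ tor A d ↔ ∃ hx : x ∈ A, (⟨x, hx⟩ : A) ^ d = 1 :=
  ⟨fun ⟨a, ha, hax⟩ => hax ▸ ⟨a.2, ha⟩, fun ⟨hx, h⟩ => ⟨⟨x, hx⟩, h, rfl⟩⟩

instance (d : ℕ) : (tor A d).Normal := ⟨fun x hx g => by
  obtain ⟨hx, h⟩ := mem_tor.1 hx
  refine mem_tor.2 ⟨‹A.Normal›.conj_mem x hx g, ?_⟩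
  rw [show (⟨g * x * g⁻¹, ‹A.Normal›.conj_mem x hx g⟩ : A) = MulAut.conjNormal g ⟨x, hx⟩ from
    Subtype.ext (MulAut.conjNormal_apply g (⟨x, hx⟩ : A)).symm, ← map_pow, h, map_one]⟩

omit [A.Normal] [Finite G] in
theorem tor_le (d : ℕ) : tor A d ≤ A := fun _ hx => (mem_tor.1 hx).1

variable {p : ℕ} [hp : Fact p.Prime]

/-- The order of the `p`-part of `A`. -/
abbrev pPart (A : Subgroup G) (p : ℕ) : ℕ := p ^ (Nat.card A).factorization p

omit [Finite G] hp in
theorem tor_le_sylow (P : Sylow p G) : tor A (pPart A p) ≤ P := by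
  refine IsPGroup.le_sylow_of_normal (fun x => ?_) P
  obtain ⟨hx, h⟩ := mem_tor.1 x.2
  refine ⟨(Nat.card A).factorization p, Subtype.ext ?_⟩
  simpa using congrArg Subtype.val h

omit [A.Normal] in
theorem inf_sylow_le_tor (P : Sylow p G) : A ⊓ P ≤ tor A (pPart A p) := fun x hx => by
  refine mem_tor.2 ⟨hx.1, orderOf_dvd_iff_pow_eq_one.1 ?_⟩
  obtain ⟨k, hk⟩ := P.isPGroup' ⟨x, hx.2⟩
  have hk' : (⟨x, hx.1⟩ : A) ^ p ^ k = 1 := Subtype.ext (by simpa using congrArg Subtype.val hk)
  obtain ⟨i, -, hi⟩ := (Nat.dvd_prime_pow hp.out).1 (orderOf_dvd_of_pow_eq_one hk')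
  rw [hi]
  exact pow_dvd_pow p ((hp.out.pow_dvd_iff_le_factorization Nat.card_pos.ne').1
    (hi ▸ orderOf_dvd_natCard _))

/-- A complement of `A ∩ P` in a Sylow subgroup `P` gives a crossed homomorphism that is the
identity on the `p`-part. -/
theorem exists_crossed_of_sylow (P : Sylow p G) (h : ComplementedIn (A ⊓ P) (P : Subgroup G)) :
    ∃ C : G → A, IsCrossed C ∧ (∀ a : A, a ^ pPart A p = 1 → C a = a) ∧
      ∀ g, C g ^ pPart A p = 1 := by
  obtain ⟨T, hT, hTA, hsup⟩ := h
  have hEP := tor_le_sylow (A := A) P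
  obtain ⟨C, hC, hCa⟩ := exists_crossed_index (P : Subgroup G) T (tor A (pPart A p))
    (eq_bot_iff.2 fun x hx => hTA ▸ ⟨hx.1, hx.2, hT hx.1⟩) (fun x hx => by
      have : x ∈ tor A (pPart A p) ⊔ T :=
        (sup_le le_sup_right ((inf_sylow_le_tor P).trans le_sup_left) :
        T ⊔ (A ⊓ P) ≤ _) (hsup.symm ▸ hx)
      obtain ⟨a, ha, t, ht, rfl⟩ := mem_sup_of_normal_left.1 this
      exact ⟨a, tor_le _ ha, t, ht, rfl⟩) hEP
  obtain ⟨e, he, he'⟩ := exists_pow_proj (A := A)
    ((Nat.coprime_ordCompl hp.out (Nat.card_pos (α := A)).ne').pow_left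
      ((Nat.card A).factorization p))
    (P : Subgroup G).index
    (((Nat.Prime.coprime_iff_not_dvd hp.out).2 P.not_dvd_index).symm.pow_right _)
  refine ⟨fun g => C g ^ e, hC.pow e, fun a ha => ?_, fun g => ?_⟩
  · show C a ^ e = a
    rw [hCa a (mem_tor.2 ⟨a.2, ha⟩), ← pow_mul]
    exact he a ha
  · have hmul : pPart A p * (Nat.card A / pPart A p) = Nat.card A :=
      Nat.ordProj_mul_ordCompl_eq_self _ _
    rw [← pow_mul, mul_comm, pow_mul]
    exact he' (C g ^ (pPart A p)) (by rw [← pow_mul, hmul, pow_card_eq_one'])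

omit hp in
/-- **Gaschütz's criterion**: complemented iff so at each Sylow subgroup. -/
theorem complemented_iff_sylow :
    Complemented A ↔ ∀ (p : ℕ) [Fact p.Prime] (P : Sylow p G),
      ComplementedIn (A ⊓ P) (P : Subgroup G) := by
  refine ⟨fun h p _ P => ?_, fun h => ?_⟩
  · obtain ⟨C, hC, hid⟩ := exists_crossed_of_complemented h
    have hp : p.Prime := Fact.out
    set q := p ^ (Nat.card A).factorization p
    have hmul : q * (Nat.card A / q) = Nat.card A := Nat.ordProj_mul_ordCompl_eq_self _ _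
    obtain ⟨e, he, he'⟩ := exists_pow_proj (A := A)
      ((Nat.coprime_ordCompl hp (Nat.card_pos (α := A)).ne').pow_left
        ((Nat.card A).factorization p)) 1
      (Nat.coprime_one_left q)
    have hval : ∀ g, (C g ^ e) ^ q = 1 := fun g => by
      rw [← pow_mul, mul_comm, pow_mul]
      exact he' (C g ^ q) (by rw [← pow_mul, hmul, pow_card_eq_one'])
    have hfix : ∀ a : A, a ^ q = 1 → C a ^ e = a := fun a ha => by
      rw [hid a, ← one_mul e]
      exact he a ha
    refine ⟨(hC.pow e).ker ⊓ P, inf_le_right, eq_bot_iff.2 fun x hx => ?_,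
      le_antisymm (sup_le inf_le_right inf_le_right) fun g hg => ?_⟩
    · obtain ⟨hxA, hxq⟩ := mem_tor.1 (inf_sylow_le_tor P hx.2)
      have h1 := hfix ⟨x, hxA⟩ hxq
      rw [show C x ^ e = 1 from hx.1.1] at h1
      exact Subgroup.mem_bot.2 (congrArg Subtype.val h1).symm
    · have hinv : ((C g ^ e : A)⁻¹) ^ q = 1 := by rw [inv_pow, hval g, inv_one]
      have hk := (hC.pow e).inv_mul_mem_ker (g := g) (hfix _ hinv)
      have ha : ((C g ^ e : A) : G) ∈ A ⊓ (P : Subgroup G) := ⟨SetLike.coe_mem _,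
        tor_le_sylow (A := A) P (mem_tor.2 ⟨SetLike.coe_mem _, hval g⟩)⟩
      have hmem := mul_mem (mem_sup_right (S := (hC.pow e).ker ⊓ (P : Subgroup G)) ha)
        (mem_sup_left (T := A ⊓ (P : Subgroup G))
          (Subgroup.mem_inf.2 ⟨hk, mul_mem (inv_mem (Subgroup.mem_inf.1 ha).2) hg⟩))
      simpa [← mul_assoc] using hmem
  · classical
    have hex : ∀ p ∈ (Nat.card A).primeFactors, ∃ C : G → A, IsCrossed C ∧
        (∀ a : A, a ^ (p ^ (Nat.card A).factorization p) = 1 → C a = a) ∧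
        ∀ g, C g ^ (p ^ (Nat.card A).factorization p) = 1 := fun p hp =>
      haveI : Fact p.Prime := ⟨Nat.prime_of_mem_primeFactors hp⟩
      exists_crossed_of_sylow _ (h p (Classical.arbitrary (Sylow p G)))
    choose! D hD hDfix hDval using hex
    have hC := IsCrossed.prod (Nat.card A).primeFactors hD
    refine complemented_of_crossed hC fun a => ?_
    let f : A →* A := MonoidHom.mk' (fun x => ∏ p ∈ (Nat.card A).primeFactors, D p x)
      fun x y => IsCrossed.map_coe_mul hC x y
    have hcard : Nat.card A ∣ Nat.card (f.eqLocus (MonoidHom.id A)) := by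
      rw [← Nat.factorization_le_iff_dvd Nat.card_pos.ne' Nat.card_pos.ne']
      intro p
      by_cases hp : p ∈ (Nat.card A).primeFactors
      · haveI : Fact p.Prime := ⟨Nat.prime_of_mem_primeFactors hp⟩
        obtain ⟨S⟩ := (inferInstance : Nonempty (Sylow p A))
        have hS : (S : Subgroup A) ≤ f.eqLocus (MonoidHom.id A) := fun x hx => by
          have hxq : x ^ (p ^ (Nat.card A).factorization p) = 1 := by
            have := pow_card_eq_one' (x := (⟨x, hx⟩ : (S : Subgroup A)))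
            rw [S.card_eq_multiplicity] at this
            exact congrArg Subtype.val this
          show ∏ r ∈ (Nat.card A).primeFactors, D r x = x
          rw [Finset.prod_eq_single_of_mem p hp fun r hr hne => ?_, hDfix p hp x hxq]
          have hdh : IsCrossed (D r) := hD r hr
          have h2 : D r x ^ (p ^ (Nat.card A).factorization p) = 1 := by
            let φ : A →* A := MonoidHom.mk' (fun y : A => D r y) fun y z => hdh.map_coe_mul y z
            show φ x ^ (p ^ (Nat.card A).factorization p) = 1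
            rw [← map_pow, hxq, φ.map_one]
          have h3 := Nat.dvd_gcd (orderOf_dvd_of_pow_eq_one h2)
            (orderOf_dvd_of_pow_eq_one (hDval r hr x))
          rwa [Nat.coprime_pow_primes _ _ (Nat.prime_of_mem_primeFactors hp)
            (Nat.prime_of_mem_primeFactors hr) hne.symm, Nat.dvd_one, orderOf_eq_one_iff] at h3
        refine (Nat.Prime.pow_dvd_iff_le_factorization Fact.out Nat.card_pos.ne').1 ?_
        rw [← S.card_eq_multiplicity]
        exact Subgroup.card_dvd_of_le hS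
      · rw [(Nat.factorization_eq_zero_iff (Nat.card A) p).2 ?_]
        · exact Nat.zero_le _
        · rw [Nat.mem_primeFactors] at hp
          by_cases h' : p.Prime
          · exact Or.inr (Or.inl fun hd => hp ⟨h', hd, Nat.card_pos.ne'⟩)
          · exact Or.inl h'
    have htop : f.eqLocus (MonoidHom.id A) = ⊤ :=
      Subgroup.eq_top_of_card_eq _ (Nat.dvd_antisymm (Subgroup.card_subgroup_dvd_card _) hcard)
    exact (htop.symm ▸ mem_top a : a ∈ f.eqLocus (MonoidHom.id A))

omit [A.Normal] [IsMulCommutative A] hp in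
/-- An abelian normal subgroup meeting the Frattini subgroup trivially is complemented. -/
theorem complemented_of_inf_frattini [A.Normal] [IsMulCommutative A]
    (h : A ⊓ frattini G = ⊥) : Complemented A := by
  obtain ⟨K, hK⟩ := exists_minimal_of_wellFoundedLT (fun K : Subgroup G => K ⊔ A = ⊤)
    ⟨⊤, top_sup_eq A⟩
  refine ⟨K, ?_, hK.prop⟩
  have hn : (K ⊓ A).Normal := ⟨fun x hx g => by
    obtain ⟨k, hk, a, ha, rfl⟩ := mem_sup_of_normal_right.1
      (hK.prop.symm ▸ mem_top g : g ∈ K ⊔ A)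
    have e : a * x * a⁻¹ = x := by
      have := congrArg Subtype.val (mul_comm (⟨a, ha⟩ : A) ⟨x, hx.2⟩)
      simp only [Subgroup.coe_mul] at this
      rw [this, mul_inv_cancel_right]
    rw [mul_inv_rev, show k * a * x * (a⁻¹ * k⁻¹) = k * (a * x * a⁻¹) * k⁻¹ by group, e]
    exact Subgroup.mem_inf.2
      ⟨mul_mem (mul_mem hk hx.1) (inv_mem hk), ‹A.Normal›.conj_mem x hx.2 k⟩⟩
  by_contra hne
  obtain ⟨M, hM, hDM⟩ : ∃ M : Subgroup G, IsCoatom M ∧ ¬ K ⊓ A ≤ M := by
    by_contra! hall
    exact hne (eq_bot_iff.2 (h ▸ le_inf inf_le_right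
      (le_sInf_of_coatom hall)))
  have hsup : M ⊔ (K ⊓ A) = ⊤ := hM.2 _ (left_lt_sup.2 hDM)
  have hle : K ≤ (M ⊓ K) ⊔ A := fun x hx => by
    obtain ⟨m, hm, d, hd, rfl⟩ := mem_sup_of_normal_right.1
      (hsup.symm ▸ mem_top x : x ∈ M ⊔ (K ⊓ A))
    exact mul_mem_sup (Subgroup.mem_inf.2 ⟨hm, (mul_mem_cancel_right
      (Subgroup.mem_inf.1 hd).1).1 hx⟩) (Subgroup.mem_inf.1 hd).2
  have hprop : (M ⊓ K) ⊔ A = ⊤ := eq_top_iff.2 (hK.prop ▸ sup_le hle le_sup_right)
  exact hDM (inf_le_left.trans ((hK.le_of_le hprop inf_le_right).trans inf_le_left))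
where
  le_sInf_of_coatom {D : Subgroup G} (hall : ∀ M : Subgroup G, IsCoatom M → D ≤ M) :
      D ≤ frattini G := le_iInf fun M => le_iInf fun hM => hall M hM

end FA.GaschuetzTheorems

end
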