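import Fermat.Agent.GaschuetzTheorems.Complement

/-!
# Gaschütz's lifting lemma

The number of lifts of a generating tuple of `G ⧸ N` that generate a given subgroup does not depend
on the tuple, by induction over the subgroup.
-/

set_option autoImplicit false
set_option linter.style.haveILetI false

noncomputable section

open Subgroup

namespace FA.GaschuetzTheorems

variable {G : Type*} [Group G] [Finite G] (N : Subgroup G) [N.Normal] {n : ℕ}

/-- The lifts of a tuple. -/
abbrev Lifts (x : Fin n → G ⧸ N) := {y : Fin n → G // ∀ i, (y i : G ⧸ N) = x i}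

/-- The lifts of a tuple generating `K`. -/
abbrev GenLifts (x : Fin n → G ⧸ N) (K : Subgroup G) :=
  {y : Lifts N x // Subgroup.closure (Set.range y.1) = K}

omit [Finite G] in
/-- The lifts inside a subgroup with `H N = G` are the tuples of `H ∩ N`. -/
theorem card_lifts_le {H : Subgroup G} (hH : H ⊔ N = ⊤) (x : Fin n → G ⧸ N) :
    Nat.card {y : Lifts N x // Subgroup.closure (Set.range y.1) ≤ H} =
      Nat.card (H ⊓ N : Subgroup G) ^ n := by
  have hex : ∀ i, ∃ h ∈ H, (h : G ⧸ N) = x i := fun i => by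
    obtain ⟨g, hg⟩ := QuotientGroup.mk_surjective (x i)
    obtain ⟨h, hh, m, hm, rfl⟩ := mem_sup_of_normal_right.1 (hH.symm ▸ mem_top g : g ∈ H ⊔ N)
    exact ⟨h, hh, by rw [← hg, QuotientGroup.eq]; simpa using hm⟩
  choose h hhH hhx using hex
  rw [show Nat.card (H ⊓ N : Subgroup G) ^ n = Nat.card (Fin n → (H ⊓ N : Subgroup G)) by
    rw [Nat.card_fun, Nat.card_fin]]
  refine Nat.card_congr ⟨fun y i => ⟨(h i)⁻¹ * y.1.1 i, Subgroup.mem_inf.2
      ⟨mul_mem (inv_mem (hhH i)) (y.2 (subset_closure (Set.mem_range_self i))),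
        QuotientGroup.eq.1 ((hhx i).trans (y.1.2 i).symm)⟩⟩,
    fun z => ⟨⟨fun i => h i * z i, fun i => ?_⟩, ?_⟩, fun y => ?_, fun z => ?_⟩
  · rw [← hhx i, QuotientGroup.eq]
    simp only [mul_inv_rev, mul_assoc, inv_mul_cancel, mul_one]
    exact inv_mem (Subgroup.mem_inf.1 (z i).2).2
  · rw [Subgroup.closure_le]
    rintro _ ⟨i, rfl⟩
    exact mul_mem (hhH i) (Subgroup.mem_inf.1 (z i).2).1
  · exact Subtype.ext (Subtype.ext (funext fun i => mul_inv_cancel_left _ _))
  · exact funext fun i => Subtype.ext (inv_mul_cancel_left _ _)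

omit [Finite G] in
/-- A generated subgroup supplements `N` when the tuple generates the quotient. -/
theorem sup_eq_top_of_genLifts {x : Fin n → G ⧸ N} (hx : Subgroup.closure (Set.range x) = ⊤)
    {K : Subgroup G} (y : GenLifts N x K) : K ⊔ N = ⊤ := by
  have hmap : (K.map (QuotientGroup.mk' N)) = ⊤ := by
    rw [← y.2, MonoidHom.map_closure, ← hx, ← Set.range_comp]
    exact congrArg _ (congrArg Set.range (funext fun i => y.1.2 i))
  rw [← QuotientGroup.ker_mk' N, ← Subgroup.comap_map_eq, hmap, Subgroup.comap_top]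

/-- **The number of generating lifts does not depend on the tuple.** -/
theorem card_genLifts_eq {x x' : Fin n → G ⧸ N} (hx : Subgroup.closure (Set.range x) = ⊤)
    (hx' : Subgroup.closure (Set.range x') = ⊤) (H : Subgroup G) :
    Nat.card (GenLifts N x H) = Nat.card (GenLifts N x' H) := by
  classical
  induction H using WellFoundedLT.induction with
  | ind H ih =>
    by_cases hH : H ⊔ N = ⊤
    · haveI := Fintype.ofFinite (Subgroup G)
      have key : ∀ z : Fin n → G ⧸ N, Nat.card (GenLifts N z H) +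
          ∑ K ∈ Finset.univ.filter (fun K => K < H), Nat.card (GenLifts N z K) =
            Nat.card (H ⊓ N : Subgroup G) ^ n := fun z => by
        rw [← card_lifts_le N hH z,
          ← Finset.sum_insert (s := Finset.univ.filter fun K => K < H) (a := H)
            (f := fun K => Nat.card (GenLifts N z K)) (by simp),
          show insert H (Finset.univ.filter fun K => K < H) = Finset.univ.filter (fun K => K ≤ H) by
            ext K; simp [le_iff_eq_or_lt],
          Finset.sum_subtype (Finset.univ.filter fun K => K ≤ H) (p := fun K => K ≤ H) (by simp),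
          ← Nat.card_sigma]
        exact Nat.card_congr ⟨fun y => ⟨y.2.1, y.2.2.trans_le y.1.2⟩,
          fun y => ⟨⟨_, y.2⟩, y.1, rfl⟩,
          fun w => Sigma.subtype_ext (Subtype.ext w.2.2) rfl, fun y => rfl⟩
      have h1 := key x
      have h2 := key x'
      rw [Finset.sum_congr rfl fun K hK => ih K (Finset.mem_filter.1 hK).2] at h1
      omega
    · haveI : IsEmpty (GenLifts N x H) := ⟨fun y => hH (sup_eq_top_of_genLifts N hx y)⟩
      haveI : IsEmpty (GenLifts N x' H) := ⟨fun y => hH (sup_eq_top_of_genLifts N hx' y)⟩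
      rw [Nat.card_of_isEmpty, Nat.card_of_isEmpty]

/-- **Gaschütz's lemma**: generators of a quotient lift to generators. -/
theorem exists_generating_lift {g : Fin n → G} (hg : Subgroup.closure (Set.range g) = ⊤)
    {x : Fin n → G ⧸ N} (hx : Subgroup.closure (Set.range x) = ⊤) :
    ∃ y : Fin n → G, (∀ i, (y i : G ⧸ N) = x i) ∧ Subgroup.closure (Set.range y) = ⊤ := by
  have hx0 : Subgroup.closure (Set.range fun i => (g i : G ⧸ N)) = ⊤ := by
    rw [← Subgroup.map_top_of_surjective _ (QuotientGroup.mk'_surjective N), ← hg,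
      MonoidHom.map_closure, ← Set.range_comp]
    rfl
  haveI : Nonempty (GenLifts N (fun i => (g i : G ⧸ N)) ⊤) := ⟨⟨⟨g, fun i => rfl⟩, hg⟩⟩
  have h := Nat.card_pos (α := GenLifts N (fun i => (g i : G ⧸ N)) ⊤)
  rw [card_genLifts_eq N hx0 hx ⊤] at h
  obtain ⟨⟨⟨⟨y, hy⟩, hy'⟩⟩, -⟩ := Nat.card_pos_iff.1 h
  exact ⟨y, hy, hy'⟩

/-- **The Eulerian function** of a quotient divides that of the group, with the quotient the
number of lifts of any generating tuple. -/
theorem card_generating_tuples {x : Fin n → G ⧸ N} (hx : Subgroup.closure (Set.range x) = ⊤) :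
    Nat.card {y : Fin n → G // Subgroup.closure (Set.range y) = ⊤} =
      Nat.card {z : Fin n → G ⧸ N // Subgroup.closure (Set.range z) = ⊤} *
        Nat.card {y : Fin n → G // (∀ i, (y i : G ⧸ N) = x i) ∧
          Subgroup.closure (Set.range y) = ⊤} := by
  classical
  haveI := Fintype.ofFinite {z : Fin n → G ⧸ N // Subgroup.closure (Set.range z) = ⊤}
  have hc : ∀ z : {z : Fin n → G ⧸ N // Subgroup.closure (Set.range z) = ⊤},
      Nat.card (GenLifts N z.1 ⊤) = Nat.card {y : Fin n → G // (∀ i, (y i : G ⧸ N) = x i) ∧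
        Subgroup.closure (Set.range y) = ⊤} := fun z =>
    (card_genLifts_eq N z.2 hx ⊤).trans
      (Nat.card_congr (Equiv.subtypeSubtypeEquivSubtypeInter _
        fun y : Fin n → G => Subgroup.closure (Set.range y) = ⊤))
  have hsum := Nat.card_sigma (β := fun z : {z : Fin n → G ⧸ N //
    Subgroup.closure (Set.range z) = ⊤} => GenLifts N z.1 ⊤)
  rw [Finset.sum_congr rfl fun z _ => hc z, Finset.sum_const, Finset.card_univ, smul_eq_mul,
    ← Nat.card_eq_fintype_card] at hsum
  rw [← hsum]
  refine Nat.card_congr ⟨fun y => ⟨⟨fun i => (y.1 i : G ⧸ N), ?_⟩, ⟨y.1, fun i => rfl⟩, y.2⟩,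
    fun w => ⟨w.2.1.1, w.2.2⟩, fun y => rfl, ?_⟩
  · have e := congrArg (Subgroup.map (QuotientGroup.mk' N)) y.2
    rw [MonoidHom.map_closure, ← Set.range_comp,
      Subgroup.map_top_of_surjective _ (QuotientGroup.mk'_surjective N)] at e
    exact e
  · rintro ⟨⟨z, hz⟩, ⟨y, hy⟩, hy'⟩
    obtain rfl : (fun i => (y i : G ⧸ N)) = z := funext hy
    rfl

/-- A `p`-group is complemented iff it is so in a Sylow subgroup. -/
theorem complemented_iff_complementedIn_sylow {A : Subgroup G} [A.Normal] [IsMulCommutative A]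
    {p : ℕ} [hp : Fact p.Prime] (hA : IsPGroup p A) (P : Sylow p G) :
    Complemented A ↔ ComplementedIn A (P : Subgroup G) := by
  obtain ⟨k, hk⟩ := IsPGroup.iff_card.1 hA
  refine complemented_iff_complementedIn (hA.le_sylow_of_normal P) ?_
  rw [hk]
  exact (((Nat.Prime.coprime_iff_not_dvd hp.out).2 P.not_dvd_index).symm).pow_right k

/-- A minimal abelian normal subgroup is complemented iff it is outside the Frattini subgroup. -/
theorem complemented_iff_not_le_frattini {A : Subgroup G} [A.Normal] [IsMulCommutative A]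
    (hne : A ≠ ⊥) (hmin : ∀ B : Subgroup G, B.Normal → B ≤ A → B = ⊥ ∨ B = A) :
    Complemented A ↔ ¬ A ≤ frattini G := by
  refine ⟨fun ⟨K, hK, hsup⟩ hle => hne ?_, fun h => complemented_of_inf_frattini ?_⟩
  · have hK' : K = ⊤ := frattini_nongenerating (eq_top_iff.2 (hsup ▸ sup_le_sup_left hle K))
    rw [← hK, hK', top_inf_eq]
  · exact (hmin (A ⊓ frattini G) inferInstance inf_le_left).resolve_right
      fun he => h (inf_eq_left.1 he)

end FA.GaschuetzTheorems

end
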